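/-
TEAM CFT -> S55, block [HPG] (architect helper56): the Hasse principle for `H²(-, ℚ̄ˣ)(p)`:
devissage (A), cohomological half of the layer step (B), glue to `GN.Stmt_HPall` and a general raw
form for [GLOB-GR].  NO completions: "locally trivial at `A`" means: the cocycle becomes the
coboundary of a finite level cochain with values in `ℚ̄ˣ` on the decomposition group `D_A ≤ G_ℚ`.

Finite level model (LOC style): `M ⊆ ℚ̄` a number field, `Γ` a finite group acting faithfully on `M`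
(`MulSemiringAction Γ M`); subgroups of `Γ` are free of charge.  The link with `G_ℚ` is the RELATION
`Lifts σ h` (`σ ∈ G_ℚ` induces `h ∈ Γ` on `M`): no quotients of profinite groups.

   LayerNorm (helper73, arithmetic: density + HNT)  +  LocNorm (raw H90 on `D_A`)   ==>  Layer
   Layer + P0/P1-B (infRes, cyclic classes)  ==> HPp (p-groups)  ==(Sylow)==>  HPfin
   HPfin ==> HPraw2 (raw cochains on `G_ℚ`)  ==(+ LTO)==>  GN.Stmt_HPall.
Definitions and statements-as-Props.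
-/
import Fermat.Agent.CFT.GN.Interface2
import Fermat.Agent.CFT.Local.Interface

set_option autoImplicit false

noncomputable section

namespace Fermat.Agent.CFT.HPG

open CategoryTheory groupCohomology Fermat.Agent.CFT.Top Fermat.Agent.CFT.GN
  Fermat.Agent.CFT.Local

attribute [local instance] Units.mulDistribMulActionRight

/-! ### Definitions -/

/-- `σ ∈ G_ℚ` induces on `M` the automorphism `h ∈ Γ`. -/
def Lifts (M : IF) {Γ : Type} [SMul Γ M] (σ : GQ) (h : Γ) : Prop :=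
  ∀ x : M, σ (x : Qb) = ((h • x : M) : Qb)

/-- functions on `G_ℚ` of finite level -/
def FinLev {X : Type} (γ : GQ → X) : Prop :=
  ∃ F : IF, FiniteDimensional ℚ F ∧ ∀ g s : GQ, s ∈ F.fixingSubgroup → γ (g * s) = γ g

/-- functions on `G_ℚ × G_ℚ` of finite level -/
def FinLev2 {X : Type} (β : GQ × GQ → X) : Prop :=
  ∃ F : IF, FiniteDimensional ℚ F ∧ ∀ g g' s s' : GQ, s ∈ F.fixingSubgroup →
    s' ∈ F.fixingSubgroup → β (g * s, g' * s') = β (g, g')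

/-- the decomposition group `D_A ≤ G_ℚ` -/
abbrev Dec (A : ValuationSubring Qb) : Subgroup GQ := A.decompositionSubgroup ℚ

/-- `β : Γ × Γ → Mˣ` is locally trivial at `A`: its pull back to `D_A` is the coboundary of a finite
level cochain with values in `ℚ̄ˣ`. -/
def LTat {M : IF} {Γ : Type} [SMul Γ M] (β : Γ × Γ → Mˣ) (A : ValuationSubring Qb) : Prop :=
  ∃ γ : GQ → Qbˣ, FinLev γ ∧ ∀ (σ τ : GQ) (h j : Γ), σ ∈ Dec A → τ ∈ Dec A → Lifts M σ h →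
    Lifts M τ j → (((β (h, j) : Mˣ) : M) : Qb) * (γ (σ * τ) : Qb) = (γ σ : Qb) * σ (γ τ : Qb)

/-- `β` is locally trivial at all finite places. -/
def LTall {M : IF} {Γ : Type} [SMul Γ M] (β : Γ × Γ → Mˣ) : Prop :=
  ∀ q : ℕ, q.Prime → ∀ A : ValuationSubring Qb, A.LiesOverPrime q → LTat β A

/-- restriction of a 2-cochain to a subgroup -/
def resCoc {G X : Type} [Group G] (H : Subgroup G) (β : G × G → X) : H × H → X :=
  fun x => β ((x.1 : G), (x.2 : G))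

lemma Lifts.mul {M : IF} {Γ : Type} [Monoid Γ] [MulAction Γ M] {σ τ : GQ} {h j : Γ}
    (hσ : Lifts M σ h) (hτ : Lifts M τ j) : Lifts M (σ * τ) (h * j) := fun x => by
  rw [AlgEquiv.mul_apply, hτ x, hσ (j • x), mul_smul]

lemma Lifts.one {M : IF} {Γ : Type} [Monoid Γ] [MulAction Γ M] : Lifts M (1 : GQ) (1 : Γ) :=
  fun x => by rw [one_smul]; rfl

lemma Lifts.inv {M : IF} {Γ : Type} [Group Γ] [MulAction Γ M] {σ : GQ} {h : Γ}
    (hσ : Lifts M σ h) : Lifts M σ⁻¹ h⁻¹ := fun x => by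
  have h1 := hσ (h⁻¹ • x)
  rw [smul_inv_smul] at h1
  rw [← h1]
  exact congrFun (congrArg DFunLike.coe (inv_mul_cancel σ)) _

lemma Lifts.pow {M : IF} {Γ : Type} [Monoid Γ] [MulAction Γ M] {σ : GQ} {h : Γ}
    (hσ : Lifts M σ h) (n : ℕ) : Lifts M (σ ^ n) (h ^ n) := by
  induction n with
  | zero => simpa using Lifts.one
  | succ n ih => rw [pow_succ, pow_succ]; exact Lifts.mul ih hσ

lemma Lifts.unique {M : IF} {Γ : Type} [SMul Γ M] [FaithfulSMul Γ M] {σ : GQ} {h j : Γ}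
    (hσ : Lifts M σ h) (hσ' : Lifts M σ j) : h = j :=
  FaithfulSMul.eq_of_smul_eq_smul fun x : M => Subtype.ext ((hσ x).symm.trans (hσ' x))

/-- the elements of `G_ℚ` which induce on `M` an element of `N ≤ Γ` -/
def liftSub {M : IF} {Γ : Type} [Group Γ] [MulAction Γ M] (N : Subgroup Γ) : Subgroup GQ where
  carrier := {σ | ∃ n ∈ N, Lifts M σ n}
  one_mem' := ⟨1, N.one_mem, Lifts.one⟩
  mul_mem' := by
    rintro σ τ ⟨n, hn, h1⟩ ⟨m, hm, h2⟩
    exact ⟨n * m, N.mul_mem hn hm, Lifts.mul h1 h2⟩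
  inv_mem' := by
    rintro σ ⟨n, hn, h1⟩
    exact ⟨n⁻¹, N.inv_mem hn, Lifts.inv h1⟩

lemma LTat.res {M : IF} {Γ : Type} [Group Γ] [MulAction Γ M] {β : Γ × Γ → Mˣ}
    {A : ValuationSubring Qb} (h : LTat β A) (N : Subgroup Γ) : LTat (resCoc N β) A := by
  obtain ⟨γ, h1, h2⟩ := h
  exact ⟨γ, h1, fun σ τ n m hσ hτ hn hm => h2 σ τ n m hσ hτ hn hm⟩

lemma LTall.res {M : IF} {Γ : Type} [Group Γ] [MulAction Γ M] {β : Γ × Γ → Mˣ}
    (h : LTall β) (N : Subgroup Γ) : LTall (resCoc N β) :=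
  fun q hq A hA => (h q hq A hA).res N

/-- the class of a multiplicative 2-cocycle -/
def mulCls {G X : Type} [Group G] [CommGroup X] [MulDistribMulAction G X] (β : G × G → X)
    (h : IsMulCocycle₂ β) : groupCohomology (Rep.ofMulDistribMulAction G X) 2 :=
  (H2π (Rep.ofMulDistribMulAction G X)).hom (cocyclesOfIsMulCocycle₂ h)

/-- the inflated cyclic cochain, multiplicatively -/
def infCycM (Γ : Type) [Group Γ] [Finite Γ] (M : IF) [MulSemiringAction Γ M] (N : Subgroup Γ)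
    [N.Normal] (φ : Γ) (a : Mˣ) : Γ × Γ → Mˣ :=
  fun y => Additive.toMul (infCyc Γ M N φ a y : Additive Mˣ)

/-! ### T0. dictionary multiplicative cocycles <-> Mathlib's `H²` -/

/-- T0. -/
def Stmt_ClsApi : Prop :=
  ∀ (G X : Type) [Group G] [CommGroup X] [MulDistribMulAction G X],
    (∀ x : groupCohomology (Rep.ofMulDistribMulAction G X) 2,
      ∃ (β : G × G → X) (h : IsMulCocycle₂ β), mulCls β h = x) ∧
    (∀ (β : G × G → X) (h : IsMulCocycle₂ β), mulCls β h = 0 ↔ IsMulCoboundary₂ β) ∧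
    (∀ (β β' : G × G → X) (h : IsMulCocycle₂ β) (h' : IsMulCocycle₂ β'),
      mulCls β h = mulCls β' h' ↔ IsMulCoboundary₂ fun x => β x / β' x) ∧
    (∀ (β : G × G → X) (h : IsMulCocycle₂ β) (n : ℕ) (h' : IsMulCocycle₂ fun x => β x ^ n),
      n • mulCls β h = mulCls (fun x => β x ^ n) h') ∧
    (∀ (H : Subgroup G) (β : G × G → X) (h : IsMulCocycle₂ β) (h' : IsMulCocycle₂ (resCoc H β)),
      (P0.resMap (Rep.ofMulDistribMulAction G X) H 2).hom (mulCls β h) = mulCls (resCoc H β) h')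

/-! ### (A) devissage -/

/-- T1. local triviality only depends on the cohomology class. -/
def Stmt_LTcob : Prop :=
  ∀ (M : IF) (Γ : Type) [Group Γ] [MulSemiringAction Γ M] [FaithfulSMul Γ M],
    FiniteDimensional ℚ M → ∀ β β' : Γ × Γ → Mˣ, IsMulCoboundary₂ (fun x => β x / β' x) →
    ∀ A : ValuationSubring Qb, LTat β' A → LTat β A

/-- T2. a class killed by restriction to `N` (`Γ/N = ⟨φ N⟩` cyclic) is an inflated cyclic class.
Pure algebra (`Stmt_infResGen` or `P0.Stmt_infRes`, `Stmt_h90`, `Stmt_layerIso`,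
`P0.Stmt_cycH2`). -/
def Stmt_ExistsInfCyc : Prop :=
  ∀ (G L : Type) [Group G] [Finite G] [Field L] [MulSemiringAction G L] [FaithfulSMul G L]
    (N : Subgroup G) [N.Normal] (φ : G), (∀ x : G ⧸ N, x ∈ Subgroup.zpowers (φ : G ⧸ N)) →
    ∀ x : groupCohomology (unitsRep G L) 2, (P0.resMap (unitsRep G L) N 2).hom x = 0 →
    ∃ (b : Lˣ) (_ : b ∈ fixedU G L) (hc : infCyc G L N φ b ∈ cocycles₂ (unitsRep G L)),
      (H2π (unitsRep G L)).hom ⟨_, hc⟩ = x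

/-- T8. **the layer step**: `Γ/N` of order `p`, `a ∈ (M^Γ)ˣ`; if the inflated cyclic cocycle of `a`
is locally trivial everywhere then `a` is a norm from `M^N`. -/
def Stmt_Layer : Prop :=
  ∀ (p : ℕ) (M : IF) (ζ : M), p.Prime → p ≠ 2 → FiniteDimensional ℚ M → IsPrimitiveRoot ζ p →
    ∀ (Γ : Type) [Group Γ] [Finite Γ] [MulSemiringAction Γ M] [FaithfulSMul Γ M],
    (∀ h : Γ, h • ζ = ζ) → ∀ (N : Subgroup Γ) [N.Normal] (φ : Γ), Nat.card (Γ ⧸ N) = p → φ ∉ N →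
    ∀ a ∈ fixedU Γ M, LTall (infCycM Γ M N φ a) →
      ∃ b : Mˣ, (∀ n ∈ N, n • b = b) ∧ a = ∏ i ∈ Finset.range p, φ ^ i • b

/-- T3. the Hasse principle for `p`-groups. -/
def Stmt_HPp : Prop :=
  ∀ (p : ℕ) (M : IF) (ζ : M), p.Prime → p ≠ 2 → FiniteDimensional ℚ M → IsPrimitiveRoot ζ p →
    ∀ (Γ : Type) [Group Γ] [Finite Γ] [MulSemiringAction Γ M] [FaithfulSMul Γ M], IsPGroup p Γ →
    ∀ β : Γ × Γ → Mˣ, IsMulCocycle₂ β → LTall β → IsMulCoboundary₂ β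

/-- T4. **the Hasse principle at finite level** (`p`-primary part of `H²(Γ, Mˣ)`, `μ_p ⊆ M`). -/
def Stmt_HPfin : Prop :=
  ∀ (p : ℕ) (M : IF) (ζ : M), p.Prime → p ≠ 2 → FiniteDimensional ℚ M → IsPrimitiveRoot ζ p →
    ∀ (Γ : Type) [Group Γ] [Finite Γ] [MulSemiringAction Γ M] [FaithfulSMul Γ M],
    ∀ β : Γ × Γ → Mˣ, IsMulCocycle₂ β → (∃ m : ℕ, IsMulCoboundary₂ fun x => β x ^ p ^ m) →
      LTall β → IsMulCoboundary₂ β

/-! ### (B) the layer step -/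

/-- T5. Hilbert 90 for finite level cocycles on an ARBITRARY subgroup `D` of `G_ℚ`. -/
def Stmt_H90sub : Prop :=
  ∀ (D : Subgroup GQ) (c : GQ → Qbˣ), FinLev c →
    (∀ g ∈ D, ∀ h ∈ D, (c (g * h) : Qb) = (c g : Qb) * g (c h : Qb)) →
    ∃ θ : Qbˣ, ∀ g ∈ D, g (θ : Qb) = θ * (c g : Qb)

/-- T6. local analysis of the inflated cyclic cocycle: if it is locally trivial at `A` and `s ∈ D_A`
induces `φ`, then `a = ∏_{i<p} sⁱ(b)` with `b` fixed by `D_A ∩ Gal(ℚ̄/M^N)`. -/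
def Stmt_LocNorm : Prop :=
  ∀ (p : ℕ) (M : IF), p.Prime → FiniteDimensional ℚ M →
    ∀ (Γ : Type) [Group Γ] [Finite Γ] [MulSemiringAction Γ M] [FaithfulSMul Γ M]
    (N : Subgroup Γ) [N.Normal] (φ : Γ), Nat.card (Γ ⧸ N) = p → φ ∉ N →
    ∀ (a : Mˣ) (A : ValuationSubring Qb), LTat (infCycM Γ M N φ a) A →
    ∀ s ∈ Dec A, Lifts M s φ →
      ∃ b : Qbˣ, (∀ σ ∈ Dec A, ∀ n ∈ N, Lifts M σ n → σ (b : Qb) = b) ∧
        (((a : Mˣ) : M) : Qb) = ∏ i ∈ Finset.range p, (s ^ i) (b : Qb)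

/-- **(LayerNorm)** the arithmetic half of the layer step (helper73, block HNQ): density of `L` in
its decomposition field + the Hasse norm theorem.  `HH = Gal(ℚ̄/K)`, `NN = Gal(ℚ̄/L)`, `L/K` cyclic of
degree `p`, `HH/NN = ⟨s₀⟩`, `μ_p ⊆ K`. -/
def Stmt_LayerNorm : Prop :=
  ∀ (p : ℕ) (HH NN : Subgroup GQ) (ζ : Qb) (s₀ : GQ), p.Prime → p ≠ 2 → NN ≤ HH →
    (∃ F : IF, FiniteDimensional ℚ F ∧ F.fixingSubgroup ≤ NN) →
    (∀ h ∈ HH, ∀ n ∈ NN, h * n * h⁻¹ ∈ NN) →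
    s₀ ∈ HH → s₀ ∉ NN → s₀ ^ p ∈ NN → (∀ h ∈ HH, ∃ i : ℕ, (s₀ ^ i)⁻¹ * h ∈ NN) →
    IsPrimitiveRoot ζ p → (∀ h ∈ HH, h ζ = ζ) →
    ∀ a : Qbˣ, (∀ h ∈ HH, h (a : Qb) = a) →
    (∀ q : ℕ, q.Prime → ∀ A : ValuationSubring Qb, A.LiesOverPrime q →
      ∀ s ∈ Dec A, s ∈ HH → s₀⁻¹ * s ∈ NN →
        ∃ b : Qbˣ, (∀ d ∈ Dec A, d ∈ NN → d (b : Qb) = b) ∧
          (a : Qb) = ∏ i ∈ Finset.range p, (s ^ i) (b : Qb)) →
    ∃ β : Qbˣ, (∀ n ∈ NN, n (β : Qb) = β) ∧ (a : Qb) = ∏ i ∈ Finset.range p, (s₀ ^ i) (β : Qb)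

/-- T7. Galois dictionary: every `h ∈ Γ` is induced by some `σ ∈ G_ℚ`; elements fixed by
`Gal(ℚ̄/M)` lie in `M`. -/
def Stmt_LiftExists : Prop :=
  (∀ (M : IF) (Γ : Type) [Group Γ] [MulSemiringAction Γ M] (h : Γ), ∃ σ : GQ, Lifts M σ h) ∧
  (∀ (M : IF) (x : Qb), (∀ σ ∈ M.fixingSubgroup, σ x = x) → x ∈ M)

/-! ### Glue -/

/-- T9. **the Hasse principle, raw form** (for [GLOB-GN] and [GLOB-GR]): `k` ANY number field,
`β : G_ℚ × G_ℚ → μ_p ⊆ ℚ̄ˣ` of finite level, a 2-cocycle on `U = Gal(ℚ̄/k)`; if for every finite place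
`A` it is on `D_A ∩ U` the coboundary of a finite level cochain with values in `ℚ̄ˣ`, then it is on `U`
the coboundary of a finite level cochain with values in `ℚ̄ˣ`. -/
def Stmt_HPraw2 : Prop :=
  ∀ (p : ℕ) (k : IF), p.Prime → p ≠ 2 → FiniteDimensional ℚ k →
    ∀ β : GQ × GQ → Qbˣ, FinLev2 β → (∀ x, β x ^ p = 1) →
    (∀ g ∈ k.fixingSubgroup, ∀ h ∈ k.fixingSubgroup, ∀ j ∈ k.fixingSubgroup,
      (β (g * h, j) : Qb) * β (g, h) = g (β (h, j) : Qb) * β (g, h * j)) →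
    (∀ q : ℕ, q.Prime → ∀ A : ValuationSubring Qb, A.LiesOverPrime q →
      ∃ γ : GQ → Qbˣ, FinLev γ ∧ ∀ σ ∈ Dec A, ∀ τ ∈ Dec A, σ ∈ k.fixingSubgroup →
        τ ∈ k.fixingSubgroup → (β (σ, τ) : Qb) * γ (σ * τ) = γ σ * σ (γ τ : Qb)) →
    ∃ γ : GQ → Qbˣ, FinLev γ ∧ ∀ σ ∈ k.fixingSubgroup, ∀ τ ∈ k.fixingSubgroup,
      (β (σ, τ) : Qb) * γ (σ * τ) = γ σ * σ (γ τ : Qb)

/-- T10. the final glue: `Stmt_HPraw2 → GN.Stmt_LTO → GN.Stmt_HPall`. -/
def Stmt_Glue : Prop := Stmt_HPraw2 → GN.Stmt_LTO → GN.Stmt_HPall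

end Fermat.Agent.CFT.HPG

end
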