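/-
TEAM CFT -> S55, block [HPG], T10: the final glue `Stmt_HPraw2 → GN.Stmt_LTO → GN.Stmt_HPall`.
-/
import Fermat.Agent.CFT.HPG.Interface

set_option autoImplicit false

noncomputable section

namespace Fermat.Agent.CFT.HPG

open CategoryTheory groupCohomology Fermat.Agent.CFT.Top Fermat.Agent.CFT.GN
  Fermat.Agent.CFT.Local

/-- `a ↦ ζ ^ a`, with values in the units. -/
def Glue_e {p : ℕ} (z : Qbˣ) (a : ZMod p) : Qbˣ := z ^ a.val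

theorem Glue_e_add {p : ℕ} [NeZero p] {z : Qbˣ} (hz : z ^ p = 1) (a b : ZMod p) :
    Glue_e z (a + b) = Glue_e z a * Glue_e z b := by
  unfold Glue_e
  rw [ZMod.val_add, ← pow_add, ← pow_eq_pow_mod _ hz]

theorem Glue_e_pow {p : ℕ} {z : Qbˣ} (hz : z ^ p = 1) (a : ZMod p) : Glue_e z a ^ p = 1 := by
  unfold Glue_e
  rw [← pow_mul, mul_comm, pow_mul, hz, one_pow]

theorem Glue_e_fix {p : ℕ} {z : Qbˣ} {σ : GQ} (hσ : σ (z : Qb) = z) (a : ZMod p) :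
    σ (Glue_e z a : Qb) = Glue_e z a := by
  unfold Glue_e
  rw [Units.val_pow_eq_pow_val, map_pow, hσ]

theorem glue : Stmt_Glue := by
  intro hHP hLTO p S k ζ hB f hf hl
  classical
  have hp : p.Prime := hB.prime
  have : Fact p.Prime := ⟨hp⟩
  set z : Qbˣ := Units.mk0 ζ (hB.zeta.ne_zero hp.ne_zero) with hzdef
  have hzc : (z : Qb) = ζ := rfl
  have hz : z ^ p = 1 := by
    apply Units.ext
    rw [Units.val_pow_eq_pow_val, hzc, hB.zeta.pow_eq_one]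
    rfl
  have hfix : ∀ σ ∈ k.fixingSubgroup, σ (z : Qb) = z := fun σ hσ =>
    (IntermediateField.mem_fixingSubgroup_iff k σ).1 hσ ζ hB.zeta_mem
  let β : GQ × GQ → Qbˣ := fun x =>
    if h : x.1 ∈ k.fixingSubgroup ∧ x.2 ∈ k.fixingSubgroup then
      Glue_e z (f (⟨x.1, h.1⟩, ⟨x.2, h.2⟩)) else 1
  have hβ : ∀ (σ τ : GQ) (hσ : σ ∈ k.fixingSubgroup) (hτ : τ ∈ k.fixingSubgroup),
      β (σ, τ) = Glue_e z (f (⟨σ, hσ⟩, ⟨τ, hτ⟩)) := fun σ τ hσ hτ => dif_pos ⟨hσ, hτ⟩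
  have hkfin : FiniteDimensional ℚ k := hB.unr.1
  -- finite level
  have h1 : FinLev2 β := by
    obtain ⟨F, hF, hFf⟩ := hf.1
    have := hF.1
    refine ⟨F ⊔ k, IntermediateField.finiteDimensional_sup F k, ?_⟩
    intro g g' s s' hs hs'
    rw [IntermediateField.fixingSubgroup_sup, Subgroup.mem_inf] at hs hs'
    by_cases hg : g ∈ k.fixingSubgroup ∧ g' ∈ k.fixingSubgroup
    · rw [hβ g g' hg.1 hg.2, hβ (g * s) (g' * s') (mul_mem hg.1 hs.2) (mul_mem hg.2 hs'.2)]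
      exact congrArg _ (hFf ⟨g, hg.1⟩ ⟨g', hg.2⟩ ⟨s, hs.2⟩ ⟨s', hs'.2⟩ hs.1 hs'.1)
    · have hg' : ¬ (g * s ∈ k.fixingSubgroup ∧ g' * s' ∈ k.fixingSubgroup) := by
        rw [Subgroup.mul_mem_cancel_right _ hs.2, Subgroup.mul_mem_cancel_right _ hs'.2]
        exact hg
      have e1 : β (g, g') = 1 := dif_neg hg
      have e2 : β (g * s, g' * s') = 1 := dif_neg hg'
      rw [e1, e2]
  have h2 : ∀ x, β x ^ p = 1 := by
    intro x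
    by_cases hx : x.1 ∈ k.fixingSubgroup ∧ x.2 ∈ k.fixingSubgroup
    · have e1 : β x = Glue_e z (f (⟨x.1, hx.1⟩, ⟨x.2, hx.2⟩)) := dif_pos hx
      rw [e1, Glue_e_pow hz]
    · have e1 : β x = 1 := dif_neg hx
      rw [e1, one_pow]
  have h3 : ∀ g ∈ k.fixingSubgroup, ∀ h ∈ k.fixingSubgroup, ∀ j ∈ k.fixingSubgroup,
      (β (g * h, j) : Qb) * β (g, h) = g (β (h, j) : Qb) * β (g, h * j) := by
    intro g hg h hh j hj
    rw [hβ _ _ (mul_mem hg hh) hj, hβ _ _ hg hh, hβ _ _ hh hj, hβ _ _ hg (mul_mem hh hj),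
      Glue_e_fix (hfix g hg), ← Units.val_mul, ← Units.val_mul, ← Glue_e_add hz, ← Glue_e_add hz]
    have e := hf.2 ⟨g, hg⟩ ⟨h, hh⟩ ⟨j, hj⟩
    have e' : f (⟨g * h, mul_mem hg hh⟩, ⟨j, hj⟩) + f (⟨g, hg⟩, ⟨h, hh⟩) =
        f (⟨h, hh⟩, ⟨j, hj⟩) + f (⟨g, hg⟩, ⟨h * j, mul_mem hh hj⟩) := by
      linear_combination -e
    rw [e']
  have h4 : ∀ q : ℕ, q.Prime → ∀ A : ValuationSubring Qb, A.LiesOverPrime q →
      ∃ γ : GQ → Qbˣ, FinLev γ ∧ ∀ σ ∈ Dec A, ∀ τ ∈ Dec A, σ ∈ k.fixingSubgroup →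
        τ ∈ k.fixingSubgroup → (β (σ, τ) : Qb) * γ (σ * τ) = γ σ * σ (γ τ : Qb) := by
    intro q hq A hA
    have hx : ∃ x : GQ → ZMod p,
        (∃ F : IF, FiniteDimensional ℚ F ∧ ∀ g s : GQ, s ∈ F.fixingSubgroup → x (g * s) = x g) ∧
        ∀ σ τ : k.fixingSubgroup, (σ : GQ) ∈ A.decompositionSubgroup ℚ →
          (τ : GQ) ∈ A.decompositionSubgroup ℚ → f (σ, τ) = x τ - x (σ * τ) + x σ := by
      by_cases hqS : (⟨q, hq⟩ : Nat.Primes) ∈ S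
      · exact hl ⟨q, hq⟩ hqS A hA
      · exact hLTO p S k ζ hB f hf ⟨q, hq⟩ hqS A hA
    obtain ⟨x, ⟨F, hF, hFx⟩, hxf⟩ := hx
    refine ⟨fun g => Glue_e z (x g), ⟨F, hF, fun g s hs => congrArg (Glue_e z) (hFx g s hs)⟩, ?_⟩
    intro σ hσ τ hτ hσk hτk
    rw [hβ σ τ hσk hτk, Glue_e_fix (hfix σ hσk), ← Units.val_mul, ← Units.val_mul,
      ← Glue_e_add hz, ← Glue_e_add hz]
    have e := hxf ⟨σ, hσk⟩ ⟨τ, hτk⟩ hσ hτ
    have e' : f (⟨σ, hσk⟩, ⟨τ, hτk⟩) + x (σ * τ) = x σ + x τ := by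
      rw [e]
      ring
    rw [e']
  obtain ⟨γ, ⟨F, hF, hFγ⟩, hγ⟩ := hHP p k hp hB.odd hkfin β h1 h2 h3 h4
  refine ⟨fun g => γ g, ⟨F, hF, fun g s hs => hFγ g s hs⟩, ?_⟩
  intro g h
  have e := hγ g g.2 h h.2
  rw [hβ g h g.2 h.2] at e
  exact e

end Fermat.Agent.CFT.HPG

end
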