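/-
TEAM CFT -> S55, block [HPG] : T9, the Hasse principle, raw form on `G_ℚ`.
-/
import Fermat.Agent.CFT.HPG.Interface

set_option autoImplicit false

noncomputable section

namespace Fermat.Agent.CFT.HPG

open CategoryTheory groupCohomology Fermat.Agent.CFT.Top Fermat.Agent.CFT.GN
  Fermat.Agent.CFT.Local

attribute [local instance] Units.mulDistribMulActionRight

/-- the subgroup of `Gal(M/ℚ)` fixing `k`. -/
def hpraw2Sub (M k : IF) : Subgroup (M ≃ₐ[ℚ] M) where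
  carrier := {h | ∀ x : M, (x : Qb) ∈ k → h x = x}
  one_mem' := fun _ _ => rfl
  mul_mem' := fun {a b} ha hb x hx => by rw [AlgEquiv.mul_apply, hb x hx, ha x hx]
  inv_mem' := fun {a} ha x hx => by
    have h1 := ha x hx
    calc a⁻¹ x = a⁻¹ (a x) := by rw [h1]
      _ = x := AlgEquiv.symm_apply_apply a x

lemma hpraw2_mem_sub {M k : IF} {h : M ≃ₐ[ℚ] M} :
    h ∈ hpraw2Sub M k ↔ ∀ x : M, (x : Qb) ∈ k → h x = x := Iff.rfl

/-- units of `M` as units of `ℚ̄`. -/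
def hpraw2Val (M : IF) : Mˣ →* Qbˣ := Units.map ((M.val : M →+* Qb) : M →* Qb)

lemma hpraw2Val_coe (M : IF) (u : Mˣ) : ((hpraw2Val M u : Qbˣ) : Qb) = ((u : M) : Qb) := rfl

/-- a unit of `ℚ̄` lying in `M` as a unit of `M`. -/
def hpraw2Mk (M : IF) (u : Qbˣ) (hu : (u : Qb) ∈ M) : Mˣ :=
  Units.mk0 ⟨u, hu⟩ (fun h => u.ne_zero (congrArg Subtype.val h))

lemma hpraw2Mk_coe (M : IF) (u : Qbˣ) (hu : (u : Qb) ∈ M) :
    (((hpraw2Mk M u hu : Mˣ) : M) : Qb) = u := rfl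

lemma hpraw2_normal_Qb : Normal ℚ Qb := by
  have : Algebra.IsAlgebraic ℚ (AlgebraicClosure ℚ) := AlgebraicClosure.isAlgebraic ℚ
  have : IsAlgClosure ℚ (AlgebraicClosure ℚ) := ⟨inferInstance, inferInstance⟩
  exact IsAlgClosure.normal ℚ (AlgebraicClosure ℚ)

/-- the core: `M` a finite normal extension containing everything, `Γ = Gal(M/k)` abstractly. -/
theorem hpraw2_core (h4 : Stmt_HPfin) (p : ℕ) (k M F : IF) (ζ : Qb) (hp : p.Prime) (hp2 : p ≠ 2)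
    (hMfd : FiniteDimensional ℚ M) (hMn : Normal ℚ M) (hkM : k ≤ M) (hFM : F ≤ M)
    (hζ : IsPrimitiveRoot ζ p) (hζM : ζ ∈ M)
    (Γ : Type) [Group Γ] [Finite Γ] [MulSemiringAction Γ M] [FaithfulSMul Γ M]
    (ι : Γ →* (M ≃ₐ[ℚ] M)) (hι : ∀ (h : Γ) (x : M), h • x = ι h x)
    (hιinj : Function.Injective ι)
    (hιr : ∀ g : M ≃ₐ[ℚ] M, g ∈ hpraw2Sub M k ↔ ∃ h, ι h = g)
    (β : GQ × GQ → Qbˣ)
    (hβF : ∀ g g' s s' : GQ, s ∈ F.fixingSubgroup → s' ∈ F.fixingSubgroup →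
      β (g * s, g' * s') = β (g, g'))
    (hβp : ∀ x, β x ^ p = 1)
    (hcoc : ∀ g ∈ k.fixingSubgroup, ∀ h ∈ k.fixingSubgroup, ∀ j ∈ k.fixingSubgroup,
      (β (g * h, j) : Qb) * β (g, h) = g (β (h, j) : Qb) * β (g, h * j))
    (hloc : ∀ q : ℕ, q.Prime → ∀ A : ValuationSubring Qb, A.LiesOverPrime q →
      ∃ γ : GQ → Qbˣ, FinLev γ ∧ ∀ σ ∈ Dec A, ∀ τ ∈ Dec A, σ ∈ k.fixingSubgroup →
        τ ∈ k.fixingSubgroup → (β (σ, τ) : Qb) * γ (σ * τ) = γ σ * σ (γ τ : Qb)) :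
    ∃ γ : GQ → Qbˣ, FinLev γ ∧ ∀ σ ∈ k.fixingSubgroup, ∀ τ ∈ k.fixingSubgroup,
      (β (σ, τ) : Qb) * γ (σ * τ) = γ σ * σ (γ τ : Qb) := by
  classical
  have hQn : Normal ℚ Qb := hpraw2_normal_Qb
  have hpne : NeZero p := ⟨hp.ne_zero⟩
  let res : GQ →* (M ≃ₐ[ℚ] M) := AlgEquiv.restrictNormalHom M
  have hres : ∀ (σ : GQ) (x : M), ((res σ x : M) : Qb) = σ (x : Qb) := fun σ x =>
    AlgEquiv.restrictNormal_commutes σ M x
  have hsurj : Function.Surjective res := AlgEquiv.restrictNormalHom_surjective Qb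
  -- lifts
  have hlift : ∀ (σ : GQ) (h : Γ), Lifts M σ h → res σ = ι h := by
    intro σ h hl
    ext x
    rw [hres, ← hι]
    exact hl x
  have hker : ∀ t : GQ, res t = 1 → t ∈ F.fixingSubgroup := by
    intro t ht
    rw [IntermediateField.mem_fixingSubgroup_iff]
    intro x hx
    have := hres t ⟨x, hFM hx⟩
    rw [ht] at this
    exact this.symm
  have hker' : ∀ t : GQ, t ∈ M.fixingSubgroup → res t = 1 := by
    intro t ht
    ext x
    rw [hres]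
    exact (IntermediateField.mem_fixingSubgroup_iff M t).1 ht x x.2
  have hinv : ∀ σ σ' τ τ' : GQ, res σ = res σ' → res τ = res τ' → β (σ, τ) = β (σ', τ') := by
    intro σ σ' τ τ' h1 h2
    have e1 : σ = σ' * (σ'⁻¹ * σ) := by group
    have e2 : τ = τ' * (τ'⁻¹ * τ) := by group
    rw [e1, e2]
    apply hβF
    · apply hker
      rw [map_mul, map_inv, h1, inv_mul_cancel]
    · apply hker
      rw [map_mul, map_inv, h2, inv_mul_cancel]
  have hU : ∀ σ : GQ, σ ∈ k.fixingSubgroup ↔ res σ ∈ hpraw2Sub M k := by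
    intro σ
    rw [IntermediateField.mem_fixingSubgroup_iff, hpraw2_mem_sub]
    constructor
    · intro h x hx
      apply Subtype.ext
      rw [hres]
      exact h x hx
    · intro h x hx
      have := congrArg Subtype.val (h ⟨x, hkM hx⟩ hx)
      rw [hres] at this
      exact this
  have hβM : ∀ x, (β x : Qb) ∈ M := by
    intro x
    have h1 : (β x : Qb) ^ p = 1 := by
      have := congrArg (fun u : Qbˣ => (u : Qb)) (hβp x)
      simpa using this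
    obtain ⟨i, -, hi⟩ := hζ.eq_pow_of_pow_eq_one h1
    rw [← hi]
    exact pow_mem hζM i
  choose s hs using fun h : Γ => hsurj (ι h)
  have hsU : ∀ h, s h ∈ k.fixingSubgroup := fun h => (hU _).2 (by rw [hs, hιr]; exact ⟨h, rfl⟩)
  let β₀ : Γ × Γ → Mˣ := fun y => hpraw2Mk M (β (s y.1, s y.2)) (hβM _)
  have hβ₀ : ∀ (σ τ : GQ) (h j : Γ), res σ = ι h → res τ = ι j →
      (((β₀ (h, j) : Mˣ) : M) : Qb) = β (σ, τ) := by
    intro σ τ h j h1 h2
    show ((β (s h, s j) : Qbˣ) : Qb) = _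
    rw [hinv (s h) σ (s j) τ (by rw [hs, h1]) (by rw [hs, h2])]
  have hsmul : ∀ (σ : GQ) (h : Γ) (u : Mˣ), res σ = ι h →
      ((((h • u : Mˣ)) : M) : Qb) = σ ((u : M) : Qb) := by
    intro σ h u h1
    rw [← hres, h1, ← hι]
    rfl
  have hcoc₀ : IsMulCocycle₂ β₀ := by
    intro g h j
    apply Units.ext
    apply Subtype.ext
    show (((β₀ (g * h, j) : Mˣ) : M) : Qb) * (((β₀ (g, h) : Mˣ) : M) : Qb) =
      ((((g • β₀ (h, j) : Mˣ)) : M) : Qb) * (((β₀ (g, h * j) : Mˣ) : M) : Qb)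
    rw [hsmul (s g) g _ (hs g), hβ₀ (s g * s h) (s j) (g * h) j (by rw [map_mul, hs, hs, map_mul]) (hs j),
      hβ₀ (s g) (s h) g h (hs g) (hs h), hβ₀ (s h) (s j) h j (hs h) (hs j),
      hβ₀ (s g) (s h * s j) g (h * j) (hs g) (by rw [map_mul, hs, hs, map_mul])]
    exact hcoc _ (hsU g) _ (hsU h) _ (hsU j)
  have hpow : ∃ m : ℕ, IsMulCoboundary₂ fun x => β₀ x ^ p ^ m := by
    refine ⟨1, fun _ => 1, fun g h => ?_⟩
    rw [pow_one, smul_one, div_one, one_mul]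
    apply Units.ext
    apply Subtype.ext
    have h1 : ((β (s g, s h) : Qbˣ) : Qb) ^ p = 1 := by
      have := congrArg (fun u : Qbˣ => (u : Qb)) (hβp (s g, s h))
      simpa using this
    show (1 : Qb) = (((β₀ (g, h) : Mˣ) : M) : Qb) ^ p
    exact h1.symm
  have hLT : LTall β₀ := by
    intro q hq A hA
    obtain ⟨γ, hγ, h⟩ := hloc q hq A hA
    refine ⟨γ, hγ, fun σ τ h' j' hσ hτ hl hl' => ?_⟩
    have e1 := hlift σ h' hl
    have e2 := hlift τ j' hl'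
    rw [hβ₀ σ τ h' j' e1 e2]
    exact h σ hσ τ hτ ((hU σ).2 (by rw [e1, hιr]; exact ⟨h', rfl⟩))
      ((hU τ).2 (by rw [e2, hιr]; exact ⟨j', rfl⟩))
  have hζ' : IsPrimitiveRoot (⟨ζ, hζM⟩ : M) p := IsPrimitiveRoot.coe_submonoidClass_iff.1 hζ
  obtain ⟨c, hc⟩ := h4 p M ⟨ζ, hζM⟩ hp hp2 hMfd hζ' Γ β₀ hcoc₀ hpow hLT
  let c' : (M ≃ₐ[ℚ] M) → Mˣ := fun g => if hg : ∃ h, ι h = g then c hg.choose else 1
  have hc' : ∀ h : Γ, c' (ι h) = c h := by
    intro h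
    have hex : ∃ h', ι h' = ι h := ⟨h, rfl⟩
    show (if hg : ∃ h', ι h' = ι h then c hg.choose else 1) = c h
    rw [dif_pos hex, hιinj hex.choose_spec]
  refine ⟨fun σ => hpraw2Val M (c' (res σ)), ⟨M, hMfd, fun g t ht => ?_⟩, fun σ hσ τ hτ => ?_⟩
  · show hpraw2Val M (c' (res (g * t))) = hpraw2Val M (c' (res g))
    rw [map_mul, hker' t ht, mul_one]
  · obtain ⟨h, e1⟩ := (hιr _).1 ((hU σ).1 hσ)
    obtain ⟨j, e2⟩ := (hιr _).1 ((hU τ).1 hτ)
    have e := hc h j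
    have e3 : res (σ * τ) = ι (h * j) := by rw [map_mul, map_mul, e1, e2]
    show (β (σ, τ) : Qb) * ((hpraw2Val M (c' (res (σ * τ))) : Qbˣ) : Qb) =
      ((hpraw2Val M (c' (res σ)) : Qbˣ) : Qb) * σ ((hpraw2Val M (c' (res τ)) : Qbˣ) : Qb)
    rw [e3, ← e1, ← e2, hc', hc', hc', ← hβ₀ σ τ h j e1.symm e2.symm, ← e, hpraw2Val_coe,
      hpraw2Val_coe, hpraw2Val_coe, ← hsmul σ h (c j) e1.symm]
    have hne : (((c (h * j) : Mˣ) : M) : Qb) ≠ 0 := fun h0 =>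
      (c (h * j)).ne_zero (Subtype.ext h0)
    have e4 : ((((h • c j / c (h * j) * c h : Mˣ)) : M) : Qb) =
        ((((h • c j : Mˣ)) : M) : Qb) / (((c (h * j) : Mˣ) : M) : Qb) * (((c h : Mˣ) : M) : Qb) := by
      simp
    rw [e4]
    field_simp

/-- T9. -/
theorem hpraw2 (h4 : Stmt_HPfin) : Stmt_HPraw2 := by
  intro p k hp hp2 hk β hβ hβp hcoc hloc
  obtain ⟨F, hF, hβF⟩ := hβ
  have hQn : Normal ℚ Qb := hpraw2_normal_Qb
  have hpne : NeZero p := ⟨hp.ne_zero⟩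
  obtain ⟨ζ, hζ⟩ := HasEnoughRootsOfUnity.exists_primitiveRoot Qb p
  have hζint : IsIntegral ℚ ζ := (AlgebraicClosure.isAlgebraic ℚ).isIntegral.isIntegral ζ
  have h1 : FiniteDimensional ℚ (IntermediateField.adjoin ℚ {ζ}) :=
    IntermediateField.adjoin.finiteDimensional hζint
  have h2 : FiniteDimensional ℚ (k ⊔ F : IF) := IntermediateField.finiteDimensional_sup k F
  have h3 : FiniteDimensional ℚ (k ⊔ F ⊔ IntermediateField.adjoin ℚ {ζ} : IF) :=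
    IntermediateField.finiteDimensional_sup _ _
  let M₀ : IF := k ⊔ F ⊔ IntermediateField.adjoin ℚ {ζ}
  let M : IF := IntermediateField.normalClosure ℚ M₀ Qb
  have hM₀M : M₀ ≤ M := M₀.le_normalClosure
  have hMfd : FiniteDimensional ℚ M := normalClosure.is_finiteDimensional ℚ M₀ Qb
  have hMn : Normal ℚ M := normalClosure.normal ℚ M₀ Qb
  exact hpraw2_core h4 p k M F ζ hp hp2 hMfd hMn
    ((le_sup_left.trans le_sup_left : k ≤ M₀).trans hM₀M)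
    ((le_sup_right.trans le_sup_left : F ≤ M₀).trans hM₀M) hζ
    (hM₀M ((le_sup_right : _ ≤ M₀) (IntermediateField.mem_adjoin_simple_self ℚ ζ)))
    (hpraw2Sub M k) (hpraw2Sub M k).subtype (fun _ _ => rfl) Subtype.val_injective
    (fun g => ⟨fun hg => ⟨⟨g, hg⟩, rfl⟩, fun ⟨h, hh⟩ => hh ▸ h.2⟩)
    β hβF hβp hcoc hloc

end Fermat.Agent.CFT.HPG

end
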