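/-
TEAM CFT -> S55, block [HPG] (architect helper56).  Assembly downstream of `Stmt_HPfin`:
   `Stmt_HPfin ⟹ Stmt_HPraw2 ⟹ GN.Stmt_HPall ⟹ GN.Stmt_GN`.
-/
import Fermat.Agent.CFT.HPG.HPraw2
import Fermat.Agent.CFT.HPG.Glue
import Fermat.Agent.CFT.GN.Final

set_option autoImplicit false

namespace Fermat.Agent.CFT.HPG

/-- the raw Hasse principle (shape consumed by [GLOB-GR]) from the finite level one -/
theorem final_hpraw2 (h : Stmt_HPfin) : Stmt_HPraw2 := hpraw2 h

/-- the shape consumed by [GLOB-GN] -/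
theorem final_hpall (h : Stmt_HPfin) : GN.Stmt_HPall := glue (hpraw2 h) GN.final_lto

/-- **(GN+), (GN-)** from the finite level Hasse principle -/
theorem final_gn (h : Stmt_HPfin) : GN.Stmt_GN := GN.final_gn (final_hpall h)

end Fermat.Agent.CFT.HPG
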