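/-
TEAM CFT, sub-project HPG, package HPG-T2: a class in `H²(G, Lˣ)` killed by restriction to a normal
subgroup `N` with cyclic quotient is an inflated cyclic class.
-/
import Fermat.Agent.CFT.HPG.Interface
import Fermat.Agent.CFT.Local.InfCyc
import Fermat.Agent.CFT.Local.H90
import Fermat.Agent.CFT.P0.All

set_option autoImplicit false

noncomputable section

namespace Fermat.Agent.CFT.HPG

open CategoryTheory groupCohomology Fermat.Agent.CFT.Top Fermat.Agent.CFT.GN Fermat.Agent.CFT.Local

attribute [local instance] Units.mulDistribMulActionRight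
attribute [local instance] Local.quotAct

theorem existsInfCyc : Stmt_ExistsInfCyc := by
  intro G L _ _ _ _ _ N _ φ hφ x hres
  have : FaithfulSMul N L :=
    ⟨fun hab => Subtype.ext (FaithfulSMul.eq_of_smul_eq_smul (M := G) (α := L) hab)⟩
  obtain ⟨y, hy⟩ := (P0.all_infRes.{0} ℤ G (unitsRep G L) N 1 (by
      intro i hi0 hi2
      have hi : i = 1 := by omega
      subst hi
      exact (Local.h90 N L).1)).2 x hres
  have hcyc := P0.cycH2 (G ⧸ N) (φ : G ⧸ N) hφ ((unitsRep G L).quotientToInvariants N)
  obtain ⟨a', hco, hinv, ha'⟩ := hcyc.2.1 y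
  have hbG : InfCyc_unit G L N a' ∈ fixedU G L := by
    intro g
    have h1 := congrArg (fun z => (z.1 : Additive Lˣ)) (hinv (g : G ⧸ N))
    simp only at h1
    rw [InfCyc_rho_mk] at h1
    exact congrArg (@Additive.toMul Lˣ) h1
  have hc := Local.infCycCocycle P0.cycH2 G L N φ hφ (InfCyc_unit G L N a') hbG
  refine ⟨InfCyc_unit G L N a', hbG, hc, ?_⟩
  have hinf := InfCyc_inf G L N φ (InfCyc_unit G L N a') (fun n _ => hbG n) hco hc
  rw [← hinf, ← hy, ← ha']
  rfl

end Fermat.Agent.CFT.HPG

end
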