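/-
TEAM CFT -> S55, block [HPG], package T0: dictionary multiplicative 2-cocycles <-> Mathlib's `H²`.
-/
import Fermat.Agent.CFT.HPG.Interface
import Fermat.Agent.CFT.P0.CycH2

set_option autoImplicit false

noncomputable section

namespace Fermat.Agent.CFT.HPG

open CategoryTheory groupCohomology Fermat.Agent.CFT.Top Fermat.Agent.CFT.GN
  Fermat.Agent.CFT.Local

attribute [local instance] Units.mulDistribMulActionRight

section

variable {G X : Type} [Group G] [CommGroup X] [MulDistribMulAction G X]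

theorem ClsApi_surj (x : groupCohomology (Rep.ofMulDistribMulAction G X) 2) :
    ∃ (β : G × G → X) (h : IsMulCocycle₂ β), mulCls β h = x := by
  induction x using H2_induction_on with
  | h c =>
    obtain ⟨c, hc⟩ := c
    exact ⟨fun x => Additive.toMul (c x : Additive X),
      isMulCocycle₂_of_mem_cocycles₂ (M := X) c hc, rfl⟩

theorem ClsApi_zero (β : G × G → X) (h : IsMulCocycle₂ β) :
    mulCls β h = 0 ↔ IsMulCoboundary₂ β := by
  constructor
  · intro h0
    exact isMulCoboundary₂_of_mem_coboundaries₂ _ ((H2π_eq_zero_iff _).1 h0)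
  · intro hb
    exact (H2π_eq_zero_iff _).2 (coboundariesOfIsMulCoboundary₂ hb).2

theorem ClsApi_eq (β β' : G × G → X) (h : IsMulCocycle₂ β) (h' : IsMulCocycle₂ β') :
    mulCls β h = mulCls β' h' ↔ IsMulCoboundary₂ fun x => β x / β' x := by
  constructor
  · intro h0
    exact isMulCoboundary₂_of_mem_coboundaries₂ _ ((H2π_eq_iff _ _).1 h0)
  · intro hb
    exact (H2π_eq_iff _ _).2 (coboundariesOfIsMulCoboundary₂ hb).2

theorem ClsApi_nsmul (β : G × G → X) (h : IsMulCocycle₂ β) (n : ℕ)
    (h' : IsMulCocycle₂ fun x => β x ^ n) : n • mulCls β h = mulCls (fun x => β x ^ n) h' := by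
  unfold mulCls
  rw [← map_nsmul]
  rfl

theorem ClsApi_res (H : Subgroup G) (β : G × G → X) (h : IsMulCocycle₂ β)
    (h' : IsMulCocycle₂ (resCoc H β)) :
    (P0.resMap (Rep.ofMulDistribMulAction G X) H 2).hom (mulCls β h) = mulCls (resCoc H β) h' := by
  refine P0.CycH2.map_H2π_eq (f := H.subtype) (φ := 𝟙 _) _ _ _ _ ?_
  have h00 : ∀ c : H × H → Rep.ofMulDistribMulAction H X,
      c - c ∈ coboundaries₂ (Rep.ofMulDistribMulAction H X) := fun c => by
    rw [sub_self]
    exact zero_mem _
  exact h00 _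

end

/-- T0. -/
theorem clsApi : Stmt_ClsApi := by
  intro G X _ _ _
  exact ⟨ClsApi_surj, ClsApi_zero, ClsApi_eq, ClsApi_nsmul, ClsApi_res⟩

end Fermat.Agent.CFT.HPG

end
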