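/-
TEAM CFT -> S55, block [HPG], T5 (helper86): Hilbert 90 for finite level cocycles on an ARBITRARY
subgroup `D ≤ G_ℚ`.  Same proof as `GN/H90gen.lean`; since no field of definition is asked for `θ`,
one can sum over `D ⧸ (D ∩ Gal(ℚ̄/F))` directly, `F` the level of `c` (no normal closure).
-/
import Fermat.Agent.CFT.HPG.Interface

set_option autoImplicit false

noncomputable section

namespace Fermat.Agent.CFT.HPG

open CategoryTheory groupCohomology Fermat.Agent.CFT.Top Fermat.Agent.CFT.GN
  Fermat.Agent.CFT.Local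

attribute [local instance] Units.mulDistribMulActionRight

/-- **T5.** -/
theorem h90sub : Stmt_H90sub := by
  classical
  intro D c ⟨M, hfd, hc₀⟩ hcoc
  have hfi : M.fixingSubgroup.FiniteIndex := finiteIndex_fixingSubgroup M
  let H : Subgroup D := M.fixingSubgroup.subgroupOf D
  have : Finite (D ⧸ H) := Subgroup.finite_quotient_of_finiteIndex
  have : Fintype (D ⧸ H) := Fintype.ofFinite _
  let φ : Qb → D → Qb := fun a g => (c (g : GQ) : Qb) * (g : GQ) a
  have hφ : ∀ a ∈ M, ∀ g : D, φ a (Quotient.out (QuotientGroup.mk g : D ⧸ H)) = φ a g := by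
    intro a ha g
    obtain ⟨h, hh⟩ := QuotientGroup.mk_out_eq_mul H g
    rw [hh]
    have h1 : c ((g : GQ) * ((h : D) : GQ)) = c g := hc₀ g h h.2
    have h2 : ((h : D) : GQ) a = a := (IntermediateField.mem_fixingSubgroup_iff M _).1 h.2 a ha
    show (c ((g : GQ) * ((h : D) : GQ)) : Qb) * ((g : GQ) * ((h : D) : GQ)) a
      = (c g : Qb) * (g : GQ) a
    rw [h1, AlgEquiv.mul_apply, h2]
  let b : Qb → Qb := fun a => ∑ x : D ⧸ H, φ a (Quotient.out x)
  -- transformation law
  have hgb : ∀ a ∈ M, ∀ g : D, (c g : Qb) * (g : GQ) (b a) = b a := by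
    intro a ha g
    show (c g : Qb) * (g : GQ) (∑ x : D ⧸ H, φ a (Quotient.out x)) = _
    rw [map_sum, Finset.mul_sum]
    have h1 : ∀ x : D ⧸ H,
        (c g : Qb) * (g : GQ) (φ a (Quotient.out x)) = φ a (Quotient.out (g • x)) := by
      intro x
      have h2 : g • x = (QuotientGroup.mk (g * Quotient.out x) : D ⧸ H) := by
        conv_lhs => rw [← QuotientGroup.out_eq' x]
        rfl
      rw [h2, hφ a ha]
      show (c g : Qb) * (g : GQ) ((c ((Quotient.out x : D) : GQ) : Qb) * ((Quotient.out x : D) : GQ) a)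
        = (c ((g : GQ) * ((Quotient.out x : D) : GQ)) : Qb)
          * ((g : GQ) * ((Quotient.out x : D) : GQ)) a
      rw [hcoc _ g.2 _ (Quotient.out x).2, map_mul, AlgEquiv.mul_apply, mul_assoc]
    rw [Finset.sum_congr rfl fun x _ => h1 x]
    exact Equiv.sum_comp (MulAction.toPerm g : Equiv.Perm (D ⧸ H))
      fun x => φ a (Quotient.out x)
  -- non vanishing
  have hex : ∃ a ∈ M, b a ≠ 0 := by
    by_contra hcon
    push Not at hcon
    let χ : (D ⧸ H) → (M →* Qb) := fun x =>
      { toFun := fun a => ((Quotient.out x : D) : GQ) (a : Qb)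
        map_one' := by simp
        map_mul' := fun a a' => by simp }
    have hχ : Function.Injective χ := by
      intro x y hxy
      rw [← QuotientGroup.out_eq' x, ← QuotientGroup.out_eq' y, QuotientGroup.eq]
      show (((Quotient.out x)⁻¹ * Quotient.out y : D) : GQ) ∈ M.fixingSubgroup
      rw [IntermediateField.mem_fixingSubgroup_iff]
      intro a ha
      have h1 : ((Quotient.out x : D) : GQ) a = ((Quotient.out y : D) : GQ) a :=
        congrArg (fun f : M →* Qb => f ⟨a, ha⟩) hxy
      show (((Quotient.out x : D) : GQ)⁻¹ * ((Quotient.out y : D) : GQ)) a = a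
      rw [AlgEquiv.mul_apply, ← h1]
      exact AlgEquiv.symm_apply_apply _ a
    have hli := (linearIndependent_monoidHom M Qb).comp χ hχ
    rw [Fintype.linearIndependent_iff] at hli
    have h0 := hli (fun x => (c ((Quotient.out x : D) : GQ) : Qb)) (by
      funext a
      rw [Finset.sum_apply]
      exact hcon a a.2) (QuotientGroup.mk 1)
    exact (c _).ne_zero h0
  obtain ⟨a, ha, hba⟩ := hex
  refine ⟨(Units.mk0 (b a) hba)⁻¹, fun g hg => ?_⟩
  rw [Units.val_inv_eq_inv_val, Units.val_mk0, map_inv₀]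
  have h1 := hgb a ha ⟨g, hg⟩
  change (c g : Qb) * g (b a) = b a at h1
  have h2 : g (b a) ≠ 0 := by
    intro h0
    rw [h0, mul_zero] at h1
    exact hba h1.symm
  have h3 : (c g : Qb) ≠ 0 := (c g).ne_zero
  have h4 : (b a)⁻¹ = ((c g : Qb) * g (b a))⁻¹ := by rw [h1]
  rw [h4, mul_inv]
  field_simp

end Fermat.Agent.CFT.HPG

end
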