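/-
TEAM CFT -> S55, block [HPG], package T4 (helper19): the Sylow step.
-/
import Fermat.Agent.CFT.HPG.Interface
import Fermat.Agent.CFT.P0.ResIndex
import Fermat.Agent.CFT.P0.ShiftExists

set_option autoImplicit false

noncomputable section

namespace Fermat.Agent.CFT.HPG

open CategoryTheory groupCohomology Fermat.Agent.CFT.Top Fermat.Agent.CFT.GN
  Fermat.Agent.CFT.Local

attribute [local instance] Units.mulDistribMulActionRight

theorem HPfin_eq_zero_of_coprime {X : Type*} [AddCommGroup X] {a b : ℕ} (hab : a.Coprime b)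
    {x : X} (ha : a • x = 0) (hb : b • x = 0) : x = 0 := by
  have h1 := addOrderOf_dvd_of_nsmul_eq_zero ha
  have h2 := addOrderOf_dvd_of_nsmul_eq_zero hb
  exact AddMonoid.addOrderOf_eq_one_iff.1 (Nat.eq_one_of_dvd_coprimes hab h1 h2)

theorem HPfin_pow_cocycle {G X : Type} [Group G] [CommGroup X] [MulDistribMulAction G X]
    {β : G × G → X} (h : IsMulCocycle₂ β) (n : ℕ) : IsMulCocycle₂ fun x => β x ^ n := by
  intro g h' j
  show β (g * h', j) ^ n * β (g, h') ^ n = g • (β (h', j) ^ n) * β (g, h' * j) ^ n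
  rw [← mul_pow, h g h' j, mul_pow, smul_pow']

theorem hpfin (h0 : Stmt_ClsApi) (h3 : Stmt_HPp) : Stmt_HPfin := by
  intro p M ζ hp hp2 hfd hζ Γ _ _ _ _ β hβ hm hLT
  obtain ⟨m, hm⟩ := hm
  have : Fact p.Prime := ⟨hp⟩
  obtain ⟨P⟩ : Nonempty (Sylow p Γ) := inferInstance
  have hfaith : FaithfulSMul (P : Subgroup Γ) M :=
    ⟨fun hab => Subtype.ext (FaithfulSMul.eq_of_smul_eq_smul (M := Γ) (α := M) hab)⟩
  have hresc : IsMulCocycle₂ (resCoc (P : Subgroup Γ) β) := fun g h j => hβ g h j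
  have hcob : IsMulCoboundary₂ (resCoc (P : Subgroup Γ) β) :=
    h3 p M ζ hp hp2 hfd hζ (P : Subgroup Γ) P.isPGroup' (resCoc (P : Subgroup Γ) β) hresc
      (hLT.res (P : Subgroup Γ))
  obtain ⟨-, a2, -, a4, a5⟩ := h0 Γ Mˣ
  obtain ⟨-, b2, -, -, -⟩ := h0 (P : Subgroup Γ) Mˣ
  have h1 : (P0.resMap (Rep.ofMulDistribMulAction Γ Mˣ) (P : Subgroup Γ) 2).hom (mulCls β hβ) = 0 := by
    rw [a5 (P : Subgroup Γ) β hβ hresc]
    exact (b2 _ _).2 hcob
  have h2 : (P : Subgroup Γ).index • mulCls β hβ = 0 :=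
    P0.resIndex P0.shift ℤ Γ _ (P : Subgroup Γ) 2 _ h1
  have h4 : p ^ m • mulCls β hβ = 0 := by
    rw [a4 β hβ (p ^ m) (HPfin_pow_cocycle hβ _)]
    exact (a2 _ _).2 hm
  have hco : (p ^ m).Coprime (P : Subgroup Γ).index :=
    Nat.Coprime.pow_left m ((Nat.Prime.coprime_iff_not_dvd hp).2 P.not_dvd_index)
  exact (a2 β hβ).1 (HPfin_eq_zero_of_coprime hco h4 h2)

end Fermat.Agent.CFT.HPG

end
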