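/-
TEAM CFT -> S55, block [HPG], task T8 (helper38): the layer step
`Stmt_LocNorm → Stmt_LayerNorm → Stmt_LiftExists → Stmt_Layer`.
-/
import Fermat.Agent.CFT.HPG.Interface

set_option autoImplicit false

noncomputable section

namespace Fermat.Agent.CFT.HPG

open CategoryTheory groupCohomology Fermat.Agent.CFT.Top Fermat.Agent.CFT.GN
  Fermat.Agent.CFT.Local

attribute [local instance] Units.mulDistribMulActionRight

/-- the inflated cyclic cochain only depends on the coset of `φ`. -/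
lemma Layer_infCycM_congr (Γ : Type) [Group Γ] [Finite Γ] (M : IF) [MulSemiringAction Γ M]
    (N : Subgroup Γ) [N.Normal] (φ φ' : Γ) (a : Mˣ) (h : (φ : Γ ⧸ N) = (φ' : Γ ⧸ N)) :
    infCycM Γ M N φ a = infCycM Γ M N φ' a := by
  funext y
  unfold infCycM infCyc
  rw [h]

/-- in a quotient of prime order every element is a power of a nontrivial one. -/
lemma Layer_exists_pow {Γ : Type} [Group Γ] (N : Subgroup Γ) [N.Normal] (p : ℕ) (hp : p.Prime)
    (hc : Nat.card (Γ ⧸ N) = p) (φ : Γ) (hφ : φ ∉ N) (h : Γ) : ∃ i : ℕ, (φ ^ i)⁻¹ * h ∈ N := by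
  have : Fact p.Prime := ⟨hp⟩
  have h1 : (φ : Γ ⧸ N) ≠ 1 := fun h0 => hφ ((QuotientGroup.eq_one_iff φ).1 h0)
  have h2 : (h : Γ ⧸ N) ∈ Subgroup.zpowers (φ : Γ ⧸ N) :=
    mem_zpowers_of_prime_card hc h1
  have : Finite (Γ ⧸ N) := Nat.finite_of_card_ne_zero (by rw [hc]; exact hp.ne_zero)
  rw [← mem_powers_iff_mem_zpowers] at h2
  obtain ⟨i, hi⟩ := h2
  refine ⟨i, ?_⟩
  rw [← QuotientGroup.eq_one_iff]
  have hi' : (φ : Γ ⧸ N) ^ i = (h : Γ ⧸ N) := hi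
  rw [QuotientGroup.mk_mul, QuotientGroup.mk_inv, QuotientGroup.mk_pow, hi', inv_mul_cancel]

lemma Layer_pow_mem {Γ : Type} [Group Γ] (N : Subgroup Γ) [N.Normal] (p : ℕ)
    (hc : Nat.card (Γ ⧸ N) = p) (φ : Γ) : φ ^ p ∈ N := by
  rw [← QuotientGroup.eq_one_iff, QuotientGroup.mk_pow, ← hc]
  exact pow_card_eq_one'

lemma Layer_val_smul {Γ : Type} [Group Γ] (M : IF) [MulSemiringAction Γ M] (h : Γ) (u : Mˣ) :
    ((h • u : Mˣ) : M) = h • (u : M) := rfl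

/-- T8. -/
theorem layer (h6 : Stmt_LocNorm) (hLN : Stmt_LayerNorm) (h7 : Stmt_LiftExists) : Stmt_Layer := by
  intro p M ζ hp hp2 hM hζ Γ _ _ _ _ hζfix N _ φ hc hφ a ha hLT
  obtain ⟨s₀, hs₀⟩ := h7.1 M Γ φ
  -- the unit of `ℚ̄` attached to `a`
  let a' : Qbˣ := Units.map ((algebraMap M Qb : M →+* Qb) : M →* Qb) a
  have ha' : (a' : Qb) = ((a : M) : Qb) := rfl
  have hζ' : IsPrimitiveRoot ((ζ : M) : Qb) p :=
    hζ.map_of_injective (f := (algebraMap M Qb)) (algebraMap M Qb).injective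
  have key := hLN p (liftSub (M := M) (⊤ : Subgroup Γ)) (liftSub (M := M) N) (ζ : Qb) s₀ hp hp2
    (by
      rintro σ ⟨n, -, hn⟩
      exact ⟨n, Subgroup.mem_top n, hn⟩)
    ⟨M, hM, by
      intro σ hσ
      refine ⟨1, N.one_mem, fun x => ?_⟩
      rw [one_smul]
      exact hσ x⟩
    (by
      rintro σ ⟨h, -, hh⟩ τ ⟨n, hn, hn'⟩
      exact ⟨h * n * h⁻¹, ‹N.Normal›.conj_mem n hn h, (hh.mul hn').mul hh.inv⟩)
    ⟨φ, Subgroup.mem_top φ, hs₀⟩
    (by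
      rintro ⟨n, hn, hn'⟩
      exact hφ (by rw [hs₀.unique hn']; exact hn))
    ⟨φ ^ p, Layer_pow_mem N p hc φ, hs₀.pow p⟩
    (by
      rintro σ ⟨h, -, hh⟩
      obtain ⟨i, hi⟩ := Layer_exists_pow N p hp hc φ hφ h
      exact ⟨i, (φ ^ i)⁻¹ * h, hi, (hs₀.pow i).inv.mul hh⟩)
    hζ'
    (by
      rintro σ ⟨h, -, hh⟩
      rw [hh ζ, hζfix h])
    a'
    (by
      rintro σ ⟨h, -, hh⟩
      rw [ha', hh (a : M)]
      have := ha h
      have h2 : h • (a : M) = (a : M) := by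
        rw [← Layer_val_smul, this]
      rw [h2])
    (by
      intro q hq A hA s hsA hsH hsN
      obtain ⟨φ', -, hφ'⟩ := hsH
      obtain ⟨n, hn, hn'⟩ := hsN
      have h1 : φ⁻¹ * φ' = n := (hs₀.inv.mul hφ').unique hn'
      have h2 : (φ : Γ ⧸ N) = (φ' : Γ ⧸ N) := by
        rw [QuotientGroup.eq, h1]; exact hn
      have h3 : φ' ∉ N := by
        intro h0
        apply hφ
        rw [← QuotientGroup.eq_one_iff] at h0 ⊢
        rw [h2, h0]
      have h4 : LTat (infCycM Γ M N φ' a) A := by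
        rw [← Layer_infCycM_congr Γ M N φ φ' a h2]
        exact hLT q hq A hA
      obtain ⟨b, hb1, hb2⟩ := h6 p M hp hM Γ N φ' hc h3 a A h4 s hsA hφ'
      refine ⟨b, ?_, hb2⟩
      rintro d hd ⟨m, hm, hm'⟩
      exact hb1 d hd m hm hm')
  obtain ⟨β, hβ1, hβ2⟩ := key
  -- `β ∈ M`
  have hβM : (β : Qb) ∈ M := h7.2 M β fun σ hσ => hβ1 σ
    ⟨1, N.one_mem, fun x => by rw [one_smul]; exact hσ x⟩
  have hβ0 : (⟨(β : Qb), hβM⟩ : M) ≠ 0 := by
    intro h0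
    exact β.ne_zero (congrArg Subtype.val h0)
  let b : Mˣ := Units.mk0 ⟨(β : Qb), hβM⟩ hβ0
  have hb : (((b : Mˣ) : M) : Qb) = β := rfl
  refine ⟨b, ?_, ?_⟩
  · intro n hn
    obtain ⟨σ, hσ⟩ := h7.1 M Γ n
    apply Units.ext
    apply Subtype.ext
    rw [Layer_val_smul, ← hσ (b : M), hb]
    exact hβ1 σ ⟨n, hn, hσ⟩
  · apply Units.ext
    apply Subtype.ext
    rw [← ha', hβ2, Units.coe_prod]
    have h1 : ((∏ i ∈ Finset.range p, ((φ ^ i • b : Mˣ) : M) : M) : Qb)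
        = ∏ i ∈ Finset.range p, (((φ ^ i • b : Mˣ) : M) : Qb) :=
      map_prod (algebraMap M Qb) _ _
    rw [h1]
    refine Finset.prod_congr rfl fun i _ => ?_
    rw [Layer_val_smul, ← (hs₀.pow i) (b : M), hb]

end Fermat.Agent.CFT.HPG

end
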