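/-
TEAM CFT, block [HPG], package T7 (helper25): Galois dictionary.
-/
import Fermat.Agent.CFT.HPG.Interface

set_option autoImplicit false

noncomputable section

namespace Fermat.Agent.CFT.HPG

open CategoryTheory groupCohomology Fermat.Agent.CFT.Top Fermat.Agent.CFT.GN
  Fermat.Agent.CFT.Local

lemma LiftExists_normal : Normal ℚ Qb := by
  have : Algebra.IsAlgebraic ℚ (AlgebraicClosure ℚ) := AlgebraicClosure.isAlgebraic ℚ
  have : IsAlgClosure ℚ (AlgebraicClosure ℚ) := ⟨inferInstance, inferInstance⟩
  exact IsAlgClosure.normal ℚ (AlgebraicClosure ℚ)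

lemma LiftExists_isGalois : IsGalois ℚ Qb := by
  have := LiftExists_normal
  exact ⟨⟩

/-- T7. -/
theorem liftExists : Stmt_LiftExists := by
  have hN := LiftExists_normal
  have hG := LiftExists_isGalois
  constructor
  · intro M Γ _ _ h
    let χ : M ≃ₐ[ℚ] M := AlgEquiv.ofRingEquiv (f := MulSemiringAction.toRingEquiv Γ M h)
      (fun r => map_ratCast (MulSemiringAction.toRingEquiv Γ M h) r)
    refine ⟨AlgEquiv.liftNormal χ Qb, fun x => ?_⟩
    exact AlgEquiv.liftNormal_commutes χ Qb x
  · intro M x hx
    have h1 := InfiniteGalois.fixedField_fixingSubgroup M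
    rw [← h1, IntermediateField.mem_fixedField_iff]
    exact hx

end Fermat.Agent.CFT.HPG

end
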