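/-
TEAM CFT -> S55, block [HPG], task T6 (helper40): local analysis of the inflated cyclic cocycle.
If `infCycM Γ M N φ a` is locally trivial at `A` and `s ∈ D_A` induces `φ`, then
`a = ∏_{i<p} sⁱ(b)` with `b` fixed by `D_A ∩ Gal(ℚ̄/M^N)`.
-/
import Fermat.Agent.CFT.HPG.Interface

set_option autoImplicit false

noncomputable section

namespace Fermat.Agent.CFT.HPG

open CategoryTheory groupCohomology Fermat.Agent.CFT.Top Fermat.Agent.CFT.GN
  Fermat.Agent.CFT.Local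

attribute [local instance] Units.mulDistribMulActionRight

/-- discrete logarithm of a power -/
lemma LocNorm_dlog_pow {G : Type} [Group G] [Finite G] (g : G) (k : ℕ) :
    P0.dlog g (g ^ k) = k % orderOf g := by
  have hpos : 0 < orderOf g := orderOf_pos g
  unfold P0.dlog
  apply le_antisymm
  · apply Nat.sInf_le
    change g ^ (k % orderOf g) = g ^ k
    exact pow_mod_orderOf g k
  · apply le_csInf (⟨k, rfl⟩ : {e : ℕ | g ^ e = g ^ k}.Nonempty)
    intro e he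
    have he' : g ^ e = g ^ k := he
    rw [pow_eq_pow_iff_modEq] at he'
    have : k % orderOf g = e % orderOf g := he'.symm
    rw [this]
    exact Nat.mod_le _ _

/-- the values of the inflated cyclic cochain -/
lemma LocNorm_val {p : ℕ} (hp : p.Prime) {M : IF} {Γ : Type} [Group Γ] [Finite Γ]
    [MulSemiringAction Γ M] (N : Subgroup Γ) [N.Normal] (φ : Γ) (hcard : Nat.card (Γ ⧸ N) = p)
    (hφ : φ ∉ N) (a : Mˣ) (i j : ℕ) (h k : Γ) (hh : (h : Γ ⧸ N) = (φ : Γ ⧸ N) ^ i)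
    (hk : (k : Γ ⧸ N) = (φ : Γ ⧸ N) ^ j) :
    infCycM Γ M N φ a (h, k) = if p ≤ i % p + j % p then a else 1 := by
  have hord : orderOf (φ : Γ ⧸ N) = p := by
    have : Fact p.Prime := ⟨hp⟩
    apply orderOf_eq_prime
    · rw [← hcard]; exact pow_card_eq_one'
    · intro h1
      exact hφ ((QuotientGroup.eq_one_iff φ).1 h1)
  have key : (infCyc Γ M N φ a (h, k) : Additive Mˣ)
      = if p ≤ i % p + j % p then Additive.ofMul a else 0 := by
    change P0.cycCochain (φ : Γ ⧸ N) (Additive.ofMul a) ((h : Γ ⧸ N), (k : Γ ⧸ N)) = _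
    unfold P0.cycCochain
    simp only [hh, hk, LocNorm_dlog_pow, hord, hcard]
  unfold infCycM
  rw [key]
  split_ifs <;> rfl

/-- **HPG-T6.** -/
theorem locNorm (h5 : Stmt_H90sub) : Stmt_LocNorm := by
  intro p M hp hM Γ _ _ _ _ N _ φ hcard hφ a A hLT s hs hsφ
  obtain ⟨γ, hγfin, hγ⟩ := hLT
  have hp2 : 2 ≤ p := hp.two_le
  have hmemN : ∀ n ∈ N, (n : Γ ⧸ N) = (φ : Γ ⧸ N) ^ 0 := fun n hn => by
    rw [pow_zero]; exact (QuotientGroup.eq_one_iff n).2 hn
  have hφ1 : (φ : Γ ⧸ N) = (φ : Γ ⧸ N) ^ 1 := (pow_one _).symm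
  have hφp : φ ^ p ∈ N := by
    rw [← QuotientGroup.eq_one_iff, QuotientGroup.mk_pow, ← hcard]
    exact pow_card_eq_one'
  -- step 1: Hilbert 90 on `D' = D_A ∩ liftSub N`
  obtain ⟨θ, hθ⟩ := h5 (Dec A ⊓ liftSub (M := M) N) γ hγfin (by
    rintro σ ⟨hσ, n, hn, hσn⟩ τ ⟨hτ, m, hm, hτm⟩
    have h1 := hγ σ τ n m hσ hτ hσn hτm
    rw [LocNorm_val hp N φ hcard hφ a 0 0 n m (hmemN n hn) (hmemN m hm)] at h1
    simpa [hp.pos.ne'] using h1)
  -- step 2: the modified cochain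
  set g' : GQ → Qb := fun σ => (γ σ : Qb) * θ * (σ (θ : Qb))⁻¹ with hg'
  have hθ0 : (θ : Qb) ≠ 0 := θ.ne_zero
  have hσθ0 : ∀ σ : GQ, σ (θ : Qb) ≠ 0 := fun σ => by
    rw [Ne, map_eq_zero_iff σ σ.injective]; exact hθ0
  have hg'0 : ∀ σ : GQ, g' σ ≠ 0 := fun σ =>
    mul_ne_zero (mul_ne_zero (γ σ).ne_zero hθ0) (inv_ne_zero (hσθ0 σ))
  have hrel : ∀ (σ τ : GQ) (h j : Γ), σ ∈ Dec A → τ ∈ Dec A → Lifts M σ h → Lifts M τ j →
      (((infCycM Γ M N φ a (h, j) : Mˣ) : M) : Qb) * g' (σ * τ) = g' σ * σ (g' τ) := by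
    intro σ τ h j hσ hτ hσh hτj
    have h1 := hγ σ τ h j hσ hτ hσh hτj
    simp only [hg', map_mul, map_inv₀, AlgEquiv.mul_apply]
    have h2 := hσθ0 σ
    have h3 : σ (τ (θ : Qb)) ≠ 0 := by
      rw [Ne, map_eq_zero_iff σ σ.injective]; exact hσθ0 τ
    field_simp
    linear_combination h1
  have hone : ∀ σ ∈ Dec A, ∀ n ∈ N, Lifts M σ n → g' σ = 1 := by
    intro σ hσ n hn hσn
    have h1 := hθ σ ⟨hσ, n, hn, hσn⟩
    simp only [hg', h1]
    have := (γ σ).ne_zero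
    field_simp
  refine ⟨Units.mk0 (g' s) (hg'0 s), ?_, ?_⟩
  · -- step 3
    intro σ hσ n hn hσn
    rw [Units.val_mk0]
    have h1 := hrel σ s n φ hσ hs hσn hsφ
    rw [LocNorm_val hp N φ hcard hφ a 0 1 n φ (hmemN n hn) hφ1, hone σ hσ n hn hσn] at h1
    have hconj : φ⁻¹ * n * φ ∈ N := by
      have := ‹N.Normal›.conj_mem n hn φ⁻¹
      simpa using this
    have hs' : s⁻¹ * σ * s ∈ Dec A := mul_mem (mul_mem (inv_mem hs) hσ) hs
    have hl' : Lifts M (s⁻¹ * σ * s) (φ⁻¹ * n * φ) := (hsφ.inv.mul hσn).mul hsφ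
    have h2 := hrel s (s⁻¹ * σ * s) φ (φ⁻¹ * n * φ) hs hs' hsφ hl'
    rw [LocNorm_val hp N φ hcard hφ a 1 0 φ _ hφ1 (hmemN _ hconj), hone _ hs' _ hconj hl'] at h2
    have h3 : s * (s⁻¹ * σ * s) = σ * s := by group
    rw [h3] at h2
    have e1 : ¬ p ≤ 0 % p + 1 % p := by
      rw [Nat.zero_mod, Nat.mod_eq_of_lt (by omega)]; omega
    have e2 : ¬ p ≤ 1 % p + 0 % p := by
      rw [Nat.zero_mod, Nat.mod_eq_of_lt (by omega)]; omega
    rw [if_neg e1] at h1
    rw [if_neg e2] at h2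
    simp only [Units.val_one, OneMemClass.coe_one, one_mul, map_one, mul_one] at h1 h2
    rw [← h1, h2]
  · -- step 4
    rw [Units.val_mk0]
    have hstep : ∀ i : ℕ, (((infCycM Γ M N φ a (φ ^ i, φ) : Mˣ) : M) : Qb) * g' (s ^ (i + 1))
        = g' (s ^ i) * (s ^ i) (g' s) := fun i => by
      rw [pow_succ]
      exact hrel (s ^ i) s (φ ^ i) φ (pow_mem hs i) hs (hsφ.pow i) hsφ
    have hvalue : ∀ i : ℕ, infCycM Γ M N φ a (φ ^ i, φ) = if p ≤ i % p + 1 % p then a else 1 :=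
      fun i => LocNorm_val hp N φ hcard hφ a i 1 (φ ^ i) φ (QuotientGroup.mk_pow N φ i) hφ1
    have hind : ∀ k : ℕ, k < p → g' (s ^ k) = ∏ i ∈ Finset.range k, (s ^ i) (g' s) := by
      intro k
      induction k with
      | zero =>
        intro _
        rw [pow_zero, Finset.prod_range_zero]
        exact hone 1 (one_mem _) 1 N.one_mem Lifts.one
      | succ k ih =>
        intro hk
        have h1 := hstep k
        have e : ¬ p ≤ k % p + 1 % p := by
          rw [Nat.mod_eq_of_lt (by omega), Nat.mod_eq_of_lt (by omega)]; omega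
        rw [hvalue, if_neg e, ih (by omega)] at h1
        simp only [Units.val_one, OneMemClass.coe_one, one_mul] at h1
        rw [h1, Finset.prod_range_succ]
    have h1 := hstep (p - 1)
    have e : p ≤ (p - 1) % p + 1 % p := by
      rw [Nat.mod_eq_of_lt (by omega), Nat.mod_eq_of_lt (by omega)]; omega
    have hpp : p - 1 + 1 = p := by omega
    rw [hvalue, if_pos e, hind (p - 1) (by omega), hpp,
      hone (s ^ p) (pow_mem hs p) (φ ^ p) hφp (hsφ.pow p), mul_one,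
      ← Finset.prod_range_succ, hpp] at h1
    exact h1

end Fermat.Agent.CFT.HPG

end
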