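/-
TEAM CFT -> S55, block [HPG] (architect helper56).  Chain 1:
   `Stmt_LayerNorm ⟹ Stmt_Layer`, and `Stmt_HPp ⟹ Stmt_HPfin`.
-/
import Fermat.Agent.CFT.HPG.Layer
import Fermat.Agent.CFT.HPG.LocNorm
import Fermat.Agent.CFT.HPG.H90sub
import Fermat.Agent.CFT.HPG.LiftExists
import Fermat.Agent.CFT.HPG.HPfin
import Fermat.Agent.CFT.HPG.ClsApi

set_option autoImplicit false

namespace Fermat.Agent.CFT.HPG

/-- the layer step from its arithmetic half -/
theorem final_layer (h : Stmt_LayerNorm) : Stmt_Layer := layer (locNorm h90sub) h liftExists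

/-- Sylow step -/
theorem final_hpfin_of_hpp (h : Stmt_HPp) : Stmt_HPfin := hpfin clsApi h

end Fermat.Agent.CFT.HPG
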