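/-
TEAM CFT -> S55, block [HPG], package T3: the Hasse principle for `p`-groups.
-/
import Fermat.Agent.CFT.HPG.Interface
import Fermat.Agent.CFT.Local.All

set_option autoImplicit false

noncomputable section

namespace Fermat.Agent.CFT.HPG

open CategoryTheory groupCohomology Fermat.Agent.CFT.Top Fermat.Agent.CFT.GN
  Fermat.Agent.CFT.Local

attribute [local instance] Units.mulDistribMulActionRight
attribute [local instance] Local.quotAct

/-- a `p`-group acting on a field fixes the `p`-th roots of unity. -/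
theorem HPp_fix_zeta {p : ℕ} (hp : p.Prime) {M : Type} [Field M] {ζ : M} (hζ : IsPrimitiveRoot ζ p)
    {Γ : Type} [Group Γ] [Finite Γ] [MulSemiringAction Γ M] (hΓ : IsPGroup p Γ) (h : Γ) :
    h • ζ = ζ := by
  have : NeZero p := ⟨hp.ne_zero⟩
  have : Fact p.Prime := ⟨hp⟩
  have hsub : MulAction.orbit Γ ζ ⊆ ((primitiveRoots p M : Finset M) : Set M) := by
    rintro _ ⟨g, rfl⟩
    rw [Finset.mem_coe, mem_primitiveRoots hp.pos]
    exact hζ.map_of_injective (f := MulSemiringAction.toRingHom Γ M g)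
      (MulSemiringAction.toRingHom Γ M g).injective
  have hle : Nat.card (MulAction.orbit Γ ζ) ≤ p - 1 := by
    rw [Nat.card_coe_set_eq]
    refine (Set.ncard_le_ncard hsub (Finset.finite_toSet _)).trans ?_
    rw [Set.ncard_coe_finset, hζ.card_primitiveRoots, Nat.totient_prime hp]
  have hfin : Finite (MulAction.orbit Γ ζ) :=
    Set.Finite.to_subtype ((Finset.finite_toSet _).subset hsub)
  obtain ⟨n, hn⟩ := hΓ.card_orbit ζ
  have hn0 : n = 0 := by
    by_contra hne
    have h1 : p ≤ p ^ n := Nat.le_self_pow hne p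
    have := hp.pos
    omega
  rw [hn0, pow_zero] at hn
  have hss : Subsingleton (MulAction.orbit Γ ζ) := (Nat.card_eq_one_iff_unique.mp hn).1
  have := hss.elim ⟨h • ζ, MulAction.mem_orbit ζ h⟩ ⟨ζ, MulAction.mem_orbit_self ζ⟩
  exact congrArg Subtype.val this

/-- cocycles of the trivial group are coboundaries. -/
theorem HPp_trivial {Γ X : Type} [Group Γ] [Subsingleton Γ] [CommGroup X] [MulDistribMulAction Γ X]
    (β : Γ × Γ → X) : IsMulCoboundary₂ β := by
  refine ⟨fun _ => β (1, 1), fun g h => ?_⟩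
  obtain rfl : g = 1 := Subsingleton.elim _ _
  obtain rfl : h = 1 := Subsingleton.elim _ _
  simp

/-- a nontrivial finite `p`-group has a normal subgroup of index `p`. -/
theorem HPp_exists_normal {p : ℕ} (hp : p.Prime) {Γ : Type} [Group Γ] [Finite Γ]
    (hΓ : IsPGroup p Γ) (h1 : Nat.card Γ ≠ 1) :
    ∃ N : Subgroup Γ, N.Normal ∧ N.index = p := by
  have : Fact p.Prime := ⟨hp⟩
  obtain ⟨k, hk⟩ := IsPGroup.iff_card.1 hΓ
  obtain ⟨k, rfl⟩ : ∃ k', k = k' + 1 := by
    rcases k with _ | k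
    · exact absurd hk h1
    · exact ⟨k, rfl⟩
  obtain ⟨N, hN⟩ := Sylow.exists_subgroup_card_pow_prime (G := Γ) p (n := k)
    (by rw [hk]; exact pow_dvd_pow p (Nat.le_succ k))
  have hidx : N.index = p := by
    have := N.card_mul_index
    rw [hN, hk, pow_succ] at this
    exact Nat.eq_of_mul_eq_mul_left (pow_pos hp.pos k) this
  refine ⟨N, ?_, hidx⟩
  apply Subgroup.normal_of_index_eq_minFac_card
  rw [hidx, hk, Nat.Prime.pow_minFac hp (Nat.succ_ne_zero k)]

/-- T3. the Hasse principle for `p`-groups. -/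
theorem hpp (h0 : Stmt_ClsApi) (h1 : Stmt_LTcob) (h2 : Stmt_ExistsInfCyc) (h8 : Stmt_Layer) :
    Stmt_HPp := by
  intro p M ζ hp hp2 hfd hζ
  have main : ∀ (n : ℕ) (Γ : Type) [Group Γ] [Finite Γ] [MulSemiringAction Γ M]
      [FaithfulSMul Γ M], Nat.card Γ = n → IsPGroup p Γ →
      ∀ β : Γ × Γ → Mˣ, IsMulCocycle₂ β → LTall β → IsMulCoboundary₂ β := by
    intro n
    induction n using Nat.strong_induction_on with
    | _ n ih =>
    intro Γ _ _ _ _ hn hΓ β hβ hLT
    by_cases hc1 : Nat.card Γ = 1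
    · have : Subsingleton Γ := (Nat.card_eq_one_iff_unique.mp hc1).1
      exact HPp_trivial β
    obtain ⟨N, hNn, hidx⟩ := HPp_exists_normal hp hΓ hc1
    have hcardQ : Nat.card (Γ ⧸ N) = p := hidx
    have : Fact p.Prime := ⟨hp⟩
    -- the restriction to `N`
    have hfaith : FaithfulSMul N M :=
      ⟨fun hab => Subtype.ext (FaithfulSMul.eq_of_smul_eq_smul (α := M) hab)⟩
    have hNlt : Nat.card N < n := by
      have := N.card_mul_index
      rw [hidx, hn] at this
      have h2 := hp.two_le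
      have hpos : 0 < Nat.card N := Nat.card_pos
      nlinarith
    have hβN : IsMulCocycle₂ (resCoc N β) := fun g h j => hβ g h j
    have hcobN : IsMulCoboundary₂ (resCoc N β) :=
      ih _ hNlt N rfl (hΓ.to_subgroup N) _ hβN (hLT.res N)
    have hres : (P0.resMap (unitsRep Γ M) N 2).hom (mulCls β hβ) = 0 := by
      rw [(h0 Γ Mˣ).2.2.2.2 N β hβ hβN]
      exact ((h0 N Mˣ).2.1 _ hβN).mpr hcobN
    -- a generator of the quotient
    obtain ⟨φ, hφ⟩ : ∃ φ : Γ, φ ∉ N := by
      by_contra hcon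
      push Not at hcon
      have : N = ⊤ := (Subgroup.eq_top_iff' N).mpr hcon
      rw [this, Subgroup.index_top] at hidx
      exact hp.one_lt.ne hidx
    have hφ1 : (φ : Γ ⧸ N) ≠ 1 := fun h => hφ ((QuotientGroup.eq_one_iff φ).mp h)
    have hgen : ∀ x : Γ ⧸ N, x ∈ Subgroup.zpowers (φ : Γ ⧸ N) := fun x =>
      mem_zpowers_of_prime_card hcardQ hφ1
    obtain ⟨b, hb, hc, hcls⟩ := h2 Γ M N φ hgen (mulCls β hβ) hres
    have hM : IsMulCocycle₂ (infCycM Γ M N φ b) := isMulCocycle₂_of_mem_cocycles₂ _ hc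
    have hclsM : mulCls (infCycM Γ M N φ b) hM = mulCls β hβ := by
      rw [← hcls]
      rfl
    have hLTM : LTall (infCycM Γ M N φ b) := fun q hq A hA =>
      h1 M Γ hfd _ _ (((h0 Γ Mˣ).2.2.1 _ _ hM hβ).mp hclsM) A (hLT q hq A hA)
    obtain ⟨b', hb'N, hb'⟩ := h8 p M ζ hp hp2 hfd hζ Γ (fun h => HPp_fix_zeta hp hζ hΓ h) N φ
      hcardQ hφ b hb hLTM
    have hzero := ((Local.all_infCyc Γ M N φ hgen
      (Local.all_infCycCocycle Γ M N φ hgen)).2 b hb).mpr ⟨b', hb'N, by rw [hcardQ]; exact hb'⟩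
    refine ((h0 Γ Mˣ).2.1 β hβ).mp ?_
    rw [← hcls]
    exact hzero
  intro Γ _ _ _ _ hΓ β hβ hLT
  exact main _ Γ rfl hΓ β hβ hLT

end Fermat.Agent.CFT.HPG

end
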