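/-
TEAM CFT, block [HPG], package T1: local triviality only depends on the cohomology class.
-/
import Fermat.Agent.CFT.HPG.Interface

set_option autoImplicit false

noncomputable section

namespace Fermat.Agent.CFT.HPG

open CategoryTheory groupCohomology Fermat.Agent.CFT.Top Fermat.Agent.CFT.GN
  Fermat.Agent.CFT.Local

attribute [local instance] Units.mulDistribMulActionRight

section

variable {M : IF} {Γ : Type} [Group Γ] [MulSemiringAction Γ M] [FaithfulSMul Γ M]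

open Classical in
/-- the 1-cochain `c : Γ → Mˣ` as a function on `G_ℚ` -/
def LTcob_gc (c : Γ → Mˣ) (σ : GQ) : Qbˣ :=
  if hσ : ∃ h : Γ, Lifts M σ h then Units.map (M.val : M →* Qb) (c hσ.choose) else 1

theorem LTcob_gc_eq (c : Γ → Mˣ) {σ : GQ} {h : Γ} (hσ : Lifts M σ h) :
    LTcob_gc c σ = Units.map (M.val : M →* Qb) (c h) := by
  have hex : ∃ h : Γ, Lifts M σ h := ⟨h, hσ⟩
  unfold LTcob_gc
  rw [dif_pos hex, Lifts.unique hex.choose_spec hσ]

omit [FaithfulSMul Γ M] in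
theorem LTcob_lifts_mul_iff {g s : GQ} (hs : s ∈ M.fixingSubgroup) (h : Γ) :
    Lifts M (g * s) h ↔ Lifts M g h := by
  have h1 : ∀ x : M, (g * s) (x : Qb) = g (x : Qb) := by
    intro x
    rw [AlgEquiv.mul_apply, (IntermediateField.mem_fixingSubgroup_iff M s).1 hs x x.2]
  constructor
  · intro hl x; rw [← h1]; exact hl x
  · intro hl x; rw [h1]; exact hl x

theorem LTcob_gc_finLev (hM : FiniteDimensional ℚ M) (c : Γ → Mˣ) :
    FinLev (LTcob_gc (M := M) c) := by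
  refine ⟨M, hM, fun g s hs => ?_⟩
  by_cases hex : ∃ h : Γ, Lifts M g h
  · obtain ⟨h, hh⟩ := hex
    rw [LTcob_gc_eq c hh, LTcob_gc_eq c ((LTcob_lifts_mul_iff hs h).2 hh)]
  · have hex' : ¬ ∃ h : Γ, Lifts M (g * s) h := fun ⟨h, hh⟩ =>
      hex ⟨h, (LTcob_lifts_mul_iff hs h).1 hh⟩
    unfold LTcob_gc
    rw [dif_neg hex, dif_neg hex']

end

theorem LTcob_finLev_mul {γ γ' : GQ → Qbˣ} (h : FinLev γ) (h' : FinLev γ') :
    FinLev (fun σ => γ σ * γ' σ) := by
  obtain ⟨F, hF, h⟩ := h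
  obtain ⟨F', hF', h'⟩ := h'
  refine ⟨F ⊔ F', IntermediateField.finiteDimensional_sup F F', fun g s hs => ?_⟩
  simp only []
  rw [h g s (IntermediateField.fixingSubgroup_antitone le_sup_left hs),
    h' g s (IntermediateField.fixingSubgroup_antitone le_sup_right hs)]

/-- T1 -/
theorem ltcob : Stmt_LTcob := by
  intro M Γ _ _ _ hM β β' hcob A hLT
  obtain ⟨c, hc⟩ := hcob
  obtain ⟨γ', hfin, hγ'⟩ := hLT
  refine ⟨fun σ => γ' σ * LTcob_gc c σ, LTcob_finLev_mul hfin (LTcob_gc_finLev hM c), ?_⟩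
  intro σ τ h j hσ hτ hh hj
  have h1 := hγ' σ τ h j hσ hτ hh hj
  simp only []
  rw [LTcob_gc_eq c hh, LTcob_gc_eq c hj, LTcob_gc_eq c (Lifts.mul hh hj)]
  have h2 : h • c j * c h * β' (h, j) = β (h, j) * c (h * j) := by
    have := hc h j
    rw [div_mul_eq_mul_div, div_eq_div_iff_mul_eq_mul] at this
    rw [this]
  have h3 : ((((h • c j : Mˣ) : M) : Qb)) * (((c h : Mˣ) : M) : Qb) * (((β' (h, j) : Mˣ) : M) : Qb)
      = (((β (h, j) : Mˣ) : M) : Qb) * (((c (h * j) : Mˣ) : M) : Qb) := by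
    have := congrArg (fun u : Mˣ => (((u : Mˣ) : M) : Qb)) h2
    simpa using this
  have h4 : σ (((c j : Mˣ) : M) : Qb) = ((((h • c j : Mˣ) : M) : Qb)) := hh _
  simp only [Units.val_mul, Units.coe_map, MonoidHom.coe_coe, IntermediateField.coe_val, map_mul]
  rw [h4]
  linear_combination (-(γ' (σ * τ) : Qb)) * h3 +
    ((((h • c j : Mˣ) : M) : Qb)) * (((c h : Mˣ) : M) : Qb) * h1

end Fermat.Agent.CFT.HPG

end
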