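/-
TEAM CFT -> S55, block [HPG] (architect helper56).  FINAL ASSEMBLY (chain 1):
the Hasse principle, unconditionally, and its consequences `GN.Stmt_HPall`, `GN.Stmt_GN`.
-/
import Fermat.Agent.CFT.HPG.Final
import Fermat.Agent.CFT.HPG.Final1
import Fermat.Agent.CFT.HPG.HPp
import Fermat.Agent.CFT.HPG.ExistsInfCyc
import Fermat.Agent.CFT.HPG.LTcob
import Fermat.Agent.CFT.HNQ.LayerNorm
import Fermat.Agent.CFT.HNQ.ApproxNorm
import Fermat.Agent.CFT.HNQ.LiftEmb
import Fermat.Agent.CFT.HNQ.NearDict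
import Fermat.Agent.CFT.HNQ.OpenFix
import Fermat.Agent.CFT.HNQ.Sep
import Fermat.Agent.CFT.HNQ.TotCplx
import Fermat.Agent.CFT.HNQ.WeakA
import Fermat.Agent.CFT.HNQ.GalDict
import Fermat.Agent.CFT.HNT.Final

set_option autoImplicit false

namespace Fermat.Agent.CFT.HPG

/-- the arithmetic half of the layer step (helper73's block HNQ) -/
theorem all_layerNorm : Stmt_LayerNorm :=
  HNQ.layerNorm HNQ.nearDict
    (HNQ.approxNorm HNQ.liftEmb HNQ.sep (HNQ.weakA HNQ.nearDict) HNQ.nearInv)
    HNQ.galDict HNQ.totCplx HNQ.openFix HNQ.grpSplit HNT.all_hntU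

theorem all_layer : Stmt_Layer := final_layer all_layerNorm

theorem all_hpp : Stmt_HPp := hpp clsApi ltcob existsInfCyc all_layer

/-- **the Hasse principle at finite level** -/
theorem all_hpfin : Stmt_HPfin := final_hpfin_of_hpp all_hpp

/-- **the Hasse principle, raw form** (consumed by [GLOB-GR]) -/
theorem all_hpraw2 : Stmt_HPraw2 := final_hpraw2 all_hpfin

/-- the shape consumed by [GLOB-GN] -/
theorem all_hpall : GN.Stmt_HPall := final_hpall all_hpfin

/-- **(GN+), (GN-)**, unconditional -/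
theorem all_gn : GN.Stmt_GN := final_gn all_hpfin

end Fermat.Agent.CFT.HPG
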